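/-
Positive definite ternary forms of determinant one (helper85).
-/
import Mathlib

/-!
# Positive definite integral ternary forms of determinant one

Every symmetric positive definite `3 x 3` matrix with integral entries and determinant one is
`Uᵀ * U` with an integral matrix `U` (`exists_eq_transpose_mul`): up to equivalence the only such
form is `x² + y² + z²`. The proof is the classical reduction theory. Among all bases take one which
makes first the value `a` of the form at the first basis vector minimal, and then the determinant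
`G` of the first two vectors. Then `3 G² ≤ 4 a` and `3 a² ≤ 4 G`, so `a = 1`, and the orthogonal
complement of the first vector is a binary form of determinant one (`binary`).
-/

namespace Fermat.Agent.Cor.Poly

open Matrix

/-- The integral `3 x 3` matrices. -/
abbrev M3 : Type := Matrix (Fin 3) (Fin 3) ℤ

/-- Symmetric and positive definite (on integral vectors). -/
def PD (A : M3) : Prop := A.IsSymm ∧ ∀ v : Fin 3 → ℤ, v ≠ 0 → 0 < v ⬝ᵥ (A *ᵥ v)

/-- Division with the remainder of smallest absolute value. -/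
lemma exists_near {G : ℤ} (hG : 0 < G) (H : ℤ) :
    ∃ k : ℤ, 2 * (H + k * G) ≤ G ∧ -G ≤ 2 * (H + k * G) := by
  have h1 := Int.mul_ediv_self_le (x := 2 * H + G) (k := 2 * G) (by positivity)
  have h2 := Int.lt_mul_ediv_self_add (x := 2 * H + G) (k := 2 * G) (by positivity)
  refine ⟨-((2 * H + G) / (2 * G)), ?_, ?_⟩ <;> nlinarith

lemma sq_near {G X : ℤ} (h1 : 2 * X ≤ G) (h2 : -G ≤ 2 * X) : 4 * X ^ 2 ≤ G ^ 2 := by
  nlinarith [mul_nonneg (sub_nonneg.2 h1) (by linarith : (0 : ℤ) ≤ 2 * X + G)]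

/-- A positive binary form of determinant one is a sum of two squares of integral linear forms. -/
lemma binary (n : ℕ) : ∀ G H K : ℤ, G = n → 0 < G → G * K - H ^ 2 = 1 →
    ∃ p q x y : ℤ, G = p ^ 2 + x ^ 2 ∧ H = p * q + x * y ∧ K = q ^ 2 + y ^ 2 := by
  induction n using Nat.strong_induction_on with
  | _ n ih =>
    intro G H K hn hG hd
    obtain ⟨k, hk1, hk2⟩ := exists_near hG H
    have hsq := sq_near hk1 hk2
    have hd' : G * (K + 2 * k * H + k ^ 2 * G) - (H + k * G) ^ 2 = 1 := by linear_combination hd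
    set H' := H + k * G with hH'
    set K' := K + 2 * k * H + k ^ 2 * G with hK'
    have hH : H = H' - k * G := by rw [hH']; ring
    have hK : K = K' - 2 * k * H' + k ^ 2 * G := by rw [hK', hH']; ring
    rcases eq_or_lt_of_le (Int.add_one_le_iff.2 hG) with h1 | h1
    · have hG1 : G = 1 := by omega
      have hH0 : H' = 0 := by omega
      have hK1 : K' = 1 := by
        rw [hG1, hH0] at hd'; linarith
      refine ⟨1, -k, 0, 1, ?_, ?_, ?_⟩
      · rw [hG1]; norm_num
      · rw [hH, hH0, hG1]; ring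
      · rw [hK, hH0, hG1, hK1]; ring
    · have hpos : 0 < K' := by
        by_contra h
        push Not at h
        nlinarith [sq_nonneg H', mul_nonneg hG.le (neg_nonneg.2 h)]
      have hlt : K' < G := by
        by_contra h
        push Not at h
        nlinarith [mul_le_mul_of_nonneg_left h hG.le]
      obtain ⟨p, q, x, y, e1, e2, e3⟩ := ih K'.toNat (by omega) K' H' G (by omega) hpos
        (by linear_combination hd')
      refine ⟨q, p - k * q, y, x - k * y, e3, ?_, ?_⟩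
      · rw [hH, e2, e3]; ring
      · rw [hK, e1, e2, e3]; ring

lemma conj_symm {A : M3} (h : A.IsSymm) (V : M3) : (Vᵀ * A * V).IsSymm := by
  unfold Matrix.IsSymm at *
  simp only [Matrix.transpose_mul, Matrix.transpose_transpose, h, Matrix.mul_assoc]

lemma PD.conj {A : M3} (h : PD A) (V : M3ˣ) : PD ((V : M3)ᵀ * A * (V : M3)) := by
  refine ⟨conj_symm h.1 _, fun v hv => ?_⟩
  have hne : (V : M3) *ᵥ v ≠ 0 := by
    intro h0
    apply hv
    have h1 : ((V⁻¹ : M3ˣ) : M3) *ᵥ ((V : M3) *ᵥ v) = v := by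
      rw [Matrix.mulVec_mulVec, ← Units.val_mul, inv_mul_cancel, Units.val_one, Matrix.one_mulVec]
    rw [← h1, h0, Matrix.mulVec_zero]
  have h2 := h.2 _ hne
  have h3 : v ⬝ᵥ (((V : M3)ᵀ * A * (V : M3)) *ᵥ v) =
      ((V : M3) *ᵥ v) ⬝ᵥ (A *ᵥ ((V : M3) *ᵥ v)) := by
    rw [← Matrix.mulVec_mulVec, ← Matrix.mulVec_mulVec, Matrix.dotProduct_mulVec,
      Matrix.vecMul_transpose]
  rwa [h3]

lemma det_conj (A : M3) (V : M3ˣ) : ((V : M3)ᵀ * A * (V : M3)).det = A.det := by
  rw [Matrix.det_mul, Matrix.det_mul, Matrix.det_transpose]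
  have h : IsUnit ((V : M3).det) := (Matrix.isUnit_iff_isUnit_det _).1 V.isUnit
  rcases Int.isUnit_iff.1 h with h | h <;> rw [h] <;> ring

/-- The value of the form at the first basis vector is positive. -/
lemma PD.pos {A : M3} (h : PD A) : 0 < A 0 0 := by
  have h1 := h.2 ![1, 0, 0] (by
    intro h; have := congrFun h 0; simp at this)
  simpa [Matrix.mulVec, dotProduct, Fin.sum_univ_three] using h1

/-- The determinant of the first two vectors is positive. -/
lemma PD.pos_two {A : M3} (h : PD A) : 0 < A 0 0 * A 1 1 - A 0 1 ^ 2 := by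
  have ha := h.pos
  have hs : A 1 0 = A 0 1 := h.1.apply 0 1
  have h1 := h.2 ![-A 0 1, A 0 0, 0] (by
    intro h; have := congrFun h 1; simp at this; omega)
  have h2 : 0 < A 0 0 * (A 0 0 * A 1 1 - A 0 1 ^ 2) := by
    have e : (![-A 0 1, A 0 0, 0] : Fin 3 → ℤ) ⬝ᵥ (A *ᵥ ![-A 0 1, A 0 0, 0]) =
        A 0 0 * (A 0 0 * A 1 1 - A 0 1 ^ 2) := by
      simp [Matrix.mulVec, dotProduct, Fin.sum_univ_three, hs]
      ring
    rwa [e] at h1
  exact (mul_pos_iff_of_pos_left ha).1 h2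

/-- The unimodular matrix which replaces the second vector by `k e₁ + e₂`. -/
def W1 (k : ℤ) : M3ˣ where
  val := !![1, 0, 0; 0, k, -1; 0, 1, 0]
  inv := !![1, 0, 0; 0, 0, 1; 0, -1, k]
  val_inv := by
    ext i j; fin_cases i <;> fin_cases j <;> simp [Matrix.mul_apply, Fin.sum_univ_three]
  inv_val := by
    ext i j; fin_cases i <;> fin_cases j <;> simp [Matrix.mul_apply, Fin.sum_univ_three]

/-- The unimodular matrix which replaces the first vector by `k e₀ + e₁`. -/
def W2 (k : ℤ) : M3ˣ where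
  val := !![k, -1, 0; 1, 0, 0; 0, 0, 1]
  inv := !![0, 1, 0; -1, k, 0; 0, 0, 1]
  val_inv := by
    ext i j; fin_cases i <;> fin_cases j <;> simp [Matrix.mul_apply, Fin.sum_univ_three]
  inv_val := by
    ext i j; fin_cases i <;> fin_cases j <;> simp [Matrix.mul_apply, Fin.sum_univ_three]

lemma conj_mul (A : M3) (V W : M3ˣ) : ((V * W : M3ˣ) : M3)ᵀ * A * ((V * W : M3ˣ) : M3) =
    (W : M3)ᵀ * ((V : M3)ᵀ * A * (V : M3)) * (W : M3) := by
  simp only [Units.val_mul, Matrix.transpose_mul, Matrix.mul_assoc]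

/-- A form which is minimal in the sense of reduction theory is `x² + y² + z²`. -/
lemma of_min {C : M3} (hC : PD C) (hdet : C.det = 1)
    (h1 : ∀ W : M3ˣ, C 0 0 ≤ ((W : M3)ᵀ * C * (W : M3)) 0 0)
    (h2 : ∀ W : M3ˣ, ((W : M3)ᵀ * C * (W : M3)) 0 0 = C 0 0 →
      C 0 0 * C 1 1 - C 0 1 ^ 2 ≤ ((W : M3)ᵀ * C * (W : M3)) 0 0 *
        ((W : M3)ᵀ * C * (W : M3)) 1 1 - ((W : M3)ᵀ * C * (W : M3)) 0 1 ^ 2) :
    ∃ U : M3, C = Uᵀ * U := by
  have ha := hC.pos
  have hG := hC.pos_two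
  have s1 : C 1 0 = C 0 1 := hC.1.apply 0 1
  have s2 : C 2 0 = C 0 2 := hC.1.apply 0 2
  have s3 : C 2 1 = C 1 2 := hC.1.apply 1 2
  set a := C 0 0 with ea
  set t := C 0 1 with et
  set s := C 0 2 with es
  set b := C 1 1 with eb
  set r := C 1 2 with er
  set c := C 2 2 with ec
  have hd : a * (b * c - r ^ 2) - t * (t * c - r * s) + s * (t * r - b * s) = 1 := by
    rw [Matrix.det_fin_three] at hdet
    rw [s1, s2, s3] at hdet
    simp only [← ea, ← et, ← es, ← eb, ← er, ← ec] at hdet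
    linear_combination hdet
  have hGK : (a * b - t ^ 2) * (a * c - s ^ 2) - (a * r - t * s) ^ 2 = a := by
    linear_combination a * hd
  -- minimality of G
  have m1 : ∀ k : ℤ, a * b - t ^ 2 ≤
      (a * b - t ^ 2) * k ^ 2 + 2 * (a * r - t * s) * k + (a * c - s ^ 2) := by
    intro k
    have e0 : ((W1 k : M3)ᵀ * C * (W1 k : M3)) 0 0 = a := by
      simp [W1, Matrix.mul_apply, Fin.sum_univ_three, ea]
    have e1 : ((W1 k : M3)ᵀ * C * (W1 k : M3)) 1 1 = k ^ 2 * b + 2 * k * r + c := by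
      simp [W1, Matrix.mul_apply, Fin.sum_univ_three, eb, er, ec, s3]
      ring
    have e2 : ((W1 k : M3)ᵀ * C * (W1 k : M3)) 0 1 = k * t + s := by
      simp [W1, Matrix.mul_apply, Fin.sum_univ_three, et, es]
      ring
    have := h2 (W1 k) e0
    rw [e0, e1, e2] at this
    linarith
  have m2 : ∀ k : ℤ, a ≤ b + 2 * k * t + k ^ 2 * a := by
    intro k
    have e0 : ((W2 k : M3)ᵀ * C * (W2 k : M3)) 0 0 = b + 2 * k * t + k ^ 2 * a := by
      simp [W2, Matrix.mul_apply, Fin.sum_univ_three, ea, et, eb, s1]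
      ring
    have := h1 (W2 k)
    rw [e0] at this
    exact this
  have i1 : 3 * (a * b - t ^ 2) ^ 2 ≤ 4 * a := by
    obtain ⟨k, hk1, hk2⟩ := exists_near hG (a * r - t * s)
    have h4 := sq_near hk1 hk2
    have h5 := mul_le_mul_of_nonneg_left (m1 k) hG.le
    nlinarith [hGK]
  have i2 : 3 * a ^ 2 ≤ 4 * (a * b - t ^ 2) := by
    obtain ⟨k, hk1, hk2⟩ := exists_near ha t
    have h4 := sq_near hk1 hk2
    have h5 := mul_le_mul_of_nonneg_left (m2 k) ha.le
    nlinarith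
  have a1 : a = 1 := by
    by_contra hne
    have h2a : 2 ≤ a := by omega
    set G := a * b - t ^ 2 with hGdef
    have j1 : 3 * a ≤ 2 * G := by nlinarith
    nlinarith
  rw [a1] at hGK hG
  obtain ⟨p, q, x, y, f1, f2, f3⟩ := binary (1 * b - t ^ 2).toNat (1 * b - t ^ 2)
    (1 * r - t * s) (1 * c - s ^ 2) (by omega) hG hGK
  refine ⟨!![1, t, s; 0, p, q; 0, x, y], ?_⟩
  have g1 : b = t ^ 2 + p ^ 2 + x ^ 2 := by linarith
  have g2 : r = t * s + p * q + x * y := by linarith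
  have g3 : c = s ^ 2 + q ^ 2 + y ^ 2 := by linarith
  ext i j
  fin_cases i <;> fin_cases j <;>
    simp [Matrix.mul_apply, Fin.sum_univ_three, s1, s2, s3, ← ea, ← et, ← es, ← eb, ← er, ← ec,
      a1, g1, g2, g3] <;> ring

/-- **Positive definite ternary forms of determinant one**: every such integral matrix is
`Uᵀ * U` with an integral matrix `U`. -/
theorem exists_eq_transpose_mul {A : M3} (hA : PD A) (hdet : A.det = 1) :
    ∃ U : M3, A = Uᵀ * U := by
  classical
  -- first minimum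
  have hS : ∃ n : ℕ, ∃ V : M3ˣ, ((V : M3)ᵀ * A * (V : M3)) 0 0 = n :=
    ⟨((((1 : M3ˣ) : M3)ᵀ * A * ((1 : M3ˣ) : M3)) 0 0).toNat, 1,
      (Int.toNat_of_nonneg (hA.conj 1).pos.le).symm⟩
  obtain ⟨V, hV⟩ := Nat.find_spec hS
  set B := (V : M3)ᵀ * A * (V : M3) with hB
  have hBmin : ∀ W : M3ˣ, B 0 0 ≤ ((W : M3)ᵀ * B * (W : M3)) 0 0 := by
    intro W
    rw [hV]
    have h1 := (hA.conj (V * W)).pos
    have h2 := Nat.find_min' hS (m := ((((V * W : M3ˣ) : M3)ᵀ * A * ((V * W : M3ˣ) : M3)) 0 0).toNat)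
      ⟨V * W, (Int.toNat_of_nonneg h1.le).symm⟩
    rw [hB, ← conj_mul]
    omega
  have hBpd : PD B := hA.conj V
  -- second minimum
  have hT : ∃ n : ℕ, ∃ W : M3ˣ, ((W : M3)ᵀ * B * (W : M3)) 0 0 = B 0 0 ∧
      ((W : M3)ᵀ * B * (W : M3)) 0 0 * ((W : M3)ᵀ * B * (W : M3)) 1 1 -
        ((W : M3)ᵀ * B * (W : M3)) 0 1 ^ 2 = n :=
    ⟨_, 1, by simp, (Int.toNat_of_nonneg (hBpd.conj 1).pos_two.le).symm⟩
  obtain ⟨W, hW0, hW⟩ := Nat.find_spec hT
  set C := (W : M3)ᵀ * B * (W : M3) with hC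
  have hCpd : PD C := hBpd.conj W
  have hCdet : C.det = 1 := by rw [hC, det_conj, hB, det_conj, hdet]
  obtain ⟨U, hU⟩ := of_min hCpd hCdet
    (fun X => by rw [hW0, hC, ← conj_mul]; exact hBmin _)
    (fun X hX => by
      rw [hW]
      have h0 : (((W * X : M3ˣ) : M3)ᵀ * B * ((W * X : M3ˣ) : M3)) 0 0 = B 0 0 := by
        rw [conj_mul, ← hC, hX, hW0]
      have h1 := (hBpd.conj (W * X)).pos_two
      have h2 := Nat.find_min' hT (m := _) ⟨W * X, h0, (Int.toNat_of_nonneg h1.le).symm⟩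
      rw [conj_mul, ← hC] at h1 h2
      omega)
  refine ⟨U * (((V * W)⁻¹ : M3ˣ) : M3), ?_⟩
  have e : ((V * W : M3ˣ) : M3)ᵀ * A * ((V * W : M3ˣ) : M3) = Uᵀ * U := by
    rw [conj_mul, ← hB, ← hC, hU]
  have e2 : ((((V * W)⁻¹ : M3ˣ) : M3))ᵀ * (((V * W : M3ˣ) : M3)ᵀ * A * ((V * W : M3ˣ) : M3)) *
      (((V * W)⁻¹ : M3ˣ) : M3) = A := by
    have i1 : ((V * W : M3ˣ) : M3) * (((V * W)⁻¹ : M3ˣ) : M3) = 1 := by
      rw [← Units.val_mul, mul_inv_cancel, Units.val_one]
    have i2 : ((((V * W)⁻¹ : M3ˣ) : M3))ᵀ * ((V * W : M3ˣ) : M3)ᵀ = 1 := by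
      rw [← Matrix.transpose_mul, i1, Matrix.transpose_one]
    calc _ = (((((V * W)⁻¹ : M3ˣ) : M3))ᵀ * ((V * W : M3ˣ) : M3)ᵀ) * A *
          (((V * W : M3ˣ) : M3) * (((V * W)⁻¹ : M3ˣ) : M3)) := by simp only [Matrix.mul_assoc]
      _ = A := by rw [i1, i2, Matrix.one_mul, Matrix.mul_one]
  rw [← e2, e, Matrix.transpose_mul]
  simp only [Matrix.mul_assoc]

end Fermat.Agent.Cor.Poly
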