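/-
Gauss' theorem on three squares (helper85).
-/
import Fermat.Agent.Corollaries.Poly.Ternary

/-!
# Sums of three squares

`sum_three_squares_iff` (Legendre 1798, Gauss 1801): a natural number is a sum of three squares if
and only if it is not of the form `4 ^ a * (8 * b + 7)`. The proof is Dirichlet's: by his theorem on
primes in arithmetic progressions and the reciprocity law for the Jacobi symbol there is `d > 0` such
that `-d` is a square modulo `d * n - 1`; then `n` is a value of a positive definite ternary form of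
determinant one, which is a sum of three squares of integral linear forms
(`Ternary.exists_eq_transpose_mul`).

Consequences: every natural number is a sum of three triangular numbers
(`exists_three_triangular`, Gauss' Eureka theorem), every odd number is `x² + y² + 2 z²`, and every
natural number `n` is `x² + y² + z²` or `x² + y² + 2 z²`.
-/

namespace Fermat.Agent.Cor.Poly

open Matrix NumberTheorySymbols ZMod

lemma pd_aux {a b d n x y z : ℤ} {c : ℤ} (ha : 0 < a) (hd : 0 < d) (h1 : a * c - b ^ 2 = d)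
    (h2 : c = d * n - 1)
    (h : a * x ^ 2 + 2 * b * x * y + c * y ^ 2 + 2 * x * z + n * z ^ 2 ≤ 0) :
    x = 0 ∧ y = 0 ∧ z = 0 := by
  have key : a * d * (a * x ^ 2 + 2 * b * x * y + c * y ^ 2 + 2 * x * z + n * z ^ 2) =
      d * (a * x + b * y + z) ^ 2 + (d * y - b * z) ^ 2 + a * z ^ 2 := by
    have e1 : a * c = d + b ^ 2 := by linarith
    have e2 : d * n = c + 1 := by linarith
    linear_combination (d * y ^ 2 + z ^ 2) * e1 + a * z ^ 2 * e2
  have hle : d * (a * x + b * y + z) ^ 2 + (d * y - b * z) ^ 2 + a * z ^ 2 ≤ 0 := by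
    rw [← key]
    exact mul_nonpos_of_nonneg_of_nonpos (mul_pos ha hd).le h
  have p1 : 0 ≤ d * (a * x + b * y + z) ^ 2 := by positivity
  have p2 : 0 ≤ (d * y - b * z) ^ 2 := by positivity
  have p3 : 0 ≤ a * z ^ 2 := by positivity
  have z0 : z = 0 := by
    have : a * z ^ 2 = 0 := by linarith
    rcases mul_eq_zero.1 this with h | h
    · omega
    · exact pow_eq_zero_iff (two_ne_zero) |>.1 h
  have y0 : y = 0 := by
    have : (d * y - b * z) ^ 2 = 0 := by linarith
    have := pow_eq_zero_iff (two_ne_zero) |>.1 this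
    rw [z0, mul_zero, sub_zero] at this
    rcases mul_eq_zero.1 this with h | h
    · omega
    · exact h
  refine ⟨?_, y0, z0⟩
  have : d * (a * x + b * y + z) ^ 2 = 0 := by linarith
  rw [y0, z0] at this
  rcases mul_eq_zero.1 this with h | h
  · omega
  · have := pow_eq_zero_iff (two_ne_zero) |>.1 h
    rw [mul_zero, add_zero, add_zero] at this
    rcases mul_eq_zero.1 this with h | h
    · omega
    · exact h

/-- If `-d` is a square modulo `d * n - 1 > 0` then `n` is a sum of three squares. -/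
theorem exists_of_residue {n d b : ℤ} (hd : 0 < d) (hpos : 0 < d * n - 1)
    (h : d * n - 1 ∣ b ^ 2 + d) : ∃ x y z : ℤ, n = x ^ 2 + y ^ 2 + z ^ 2 := by
  obtain ⟨a, ha⟩ := h
  have ha0 : 0 < a := by
    by_contra hc
    push Not at hc
    nlinarith [sq_nonneg b, mul_nonneg hpos.le (neg_nonneg.2 hc)]
  have h1 : a * (d * n - 1) - b ^ 2 = d := by linarith
  have hPD : PD !![a, b, 1; b, d * n - 1, 0; 1, 0, n] := by
    refine ⟨?_, fun v hv => ?_⟩
    · unfold Matrix.IsSymm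
      ext i j; fin_cases i <;> fin_cases j <;> rfl
    · by_contra hc
      push Not at hc
      have e : v ⬝ᵥ ((!![a, b, 1; b, d * n - 1, 0; 1, 0, n] : M3) *ᵥ v) =
          a * v 0 ^ 2 + 2 * b * v 0 * v 1 + (d * n - 1) * v 1 ^ 2 + 2 * v 0 * v 2 +
            n * v 2 ^ 2 := by
        simp [Matrix.mulVec, dotProduct, Fin.sum_univ_three]
        ring
      rw [e] at hc
      obtain ⟨x0, y0, z0⟩ := pd_aux ha0 hd h1 rfl hc
      apply hv
      ext i
      fin_cases i
      · exact x0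
      · exact y0
      · exact z0
  have hdet : (!![a, b, 1; b, d * n - 1, 0; 1, 0, n] : M3).det = 1 := by
    rw [Matrix.det_fin_three]
    simp
    linear_combination n * h1
  obtain ⟨U, hU⟩ := exists_eq_transpose_mul hPD hdet
  refine ⟨U 0 2, U 1 2, U 2 2, ?_⟩
  have h3 := congrFun (congrFun hU 2) 2
  simp [Matrix.mul_apply, Fin.sum_univ_three] at h3
  rw [h3]
  ring

/-- From a prime `p` with `-d` a square mod `p` to a square root of `-d` modulo `p`. -/
lemma exists_sq_of_jacobi {p d : ℕ} (hp : p.Prime) (h : J(-(d : ℤ) | p) = 1) :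
    ∃ b : ℤ, (p : ℤ) ∣ b ^ 2 + d := by
  have : Fact p.Prime := ⟨hp⟩
  obtain ⟨y, hy⟩ := ZMod.isSquare_of_jacobiSym_eq_one h
  refine ⟨y.val, ?_⟩
  rw [← ZMod.intCast_zmod_eq_zero_iff_dvd]
  push_cast
  rw [ZMod.natCast_zmod_val, sq, ← hy]
  push_cast
  ring

/-- `n ≡ 2` modulo `4`. -/
theorem exists_of_two {n : ℕ} (hn : n % 4 = 2) : ∃ x y z : ℤ, (n : ℤ) = x ^ 2 + y ^ 2 + z ^ 2 := by
  have hcop : (n - 1).Coprime (4 * n) := by
    apply Nat.Coprime.mul_right
    · have : Odd (n - 1) := by rw [Nat.odd_iff]; omega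
      have h2 : (n - 1).Coprime 2 := Nat.coprime_two_right.2 this
      exact (Nat.Coprime.pow_right 2 h2)
    · have h1 : n = (n - 1) + 1 := by omega
      have : (n - 1).Coprime ((n - 1) + 1) := by simp
      rwa [← h1] at this
  obtain ⟨p, hpn, hp, hmod⟩ := Nat.forall_exists_prime_gt_and_modEq n (by omega : 4 * n ≠ 0) hcop
  obtain ⟨j, hj⟩ : ∃ j, p = n - 1 + 4 * n * j := by
    have h1 : n - 1 ≤ p := by omega
    have h2 := (Nat.modEq_iff_dvd' h1).1 hmod.symm
    obtain ⟨j, hj⟩ := h2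
    exact ⟨j, by omega⟩
  set d := 4 * j + 1 with hd
  have hpd : p + 1 = d * n := by
    rw [hj, hd]
    have : n - 1 + 1 = n := by omega
    calc n - 1 + 4 * n * j + 1 = (n - 1 + 1) + 4 * n * j := by ring
      _ = _ := by rw [this]; ring
  have hp4 : p % 4 = 1 := by
    have : (n - 1 + 4 * n * j) % 4 = 1 := by
      rw [mul_assoc, Nat.add_mul_mod_self_left]; omega
    rw [hj]; exact this
  have hodd : Odd p := by rw [Nat.odd_iff]; omega
  have hdodd : Odd d := by rw [Nat.odd_iff]; omega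
  have hJ : J(-(d : ℤ) | p) = 1 := by
    rw [jacobiSym.neg _ hodd, χ₄_nat_one_mod_four hp4, one_mul,
      jacobiSym.quadratic_reciprocity_one_mod_four' hdodd hp4]
    have e : J((p : ℤ) | d) = J(-1 | d) := by
      apply jacobiSym.mod_left'
      have : (p : ℤ) = -1 + d * n := by
        have : (p : ℤ) + 1 = d * n := by exact_mod_cast hpd
        linarith
      rw [this, Int.add_mul_emod_self_left]
    rw [e, jacobiSym.at_neg_one hdodd, χ₄_nat_one_mod_four (by omega)]
  obtain ⟨b, hb⟩ := exists_sq_of_jacobi hp hJ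
  have hpz : (d : ℤ) * n - 1 = p := by
    have : (p : ℤ) + 1 = d * n := by exact_mod_cast hpd
    linarith
  exact exists_of_residue (d := d) (b := b) (by positivity) (by rw [hpz]; exact_mod_cast hp.pos)
    (by rw [hpz]; exact hb)

/-- `n ≡ 1, 3, 5` modulo `8`. -/
theorem exists_of_odd {n : ℕ} (hn : n % 8 = 1 ∨ n % 8 = 3 ∨ n % 8 = 5) :
    ∃ x y z : ℤ, (n : ℤ) = x ^ 2 + y ^ 2 + z ^ 2 := by
  -- the parameter c
  obtain ⟨c, m, hcm, hc⟩ : ∃ c m : ℕ, c * n = 2 * m + 1 ∧
      ((c % 8 = 3 ∧ m % 4 = 1) ∨ (c % 8 = 1 ∧ m % 4 = 1) ∨ (c % 8 = 3 ∧ m % 4 = 3)) := by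
    rcases hn with h | h | h
    · exact ⟨3, (3 * n - 1) / 2, by omega, by omega⟩
    · exact ⟨1, (n - 1) / 2, by omega, by omega⟩
    · exact ⟨3, (3 * n - 1) / 2, by omega, by omega⟩
  have hcop : m.Coprime (4 * n) := by
    apply Nat.Coprime.mul_right
    · have : Odd m := by rw [Nat.odd_iff]; omega
      have h2 : m.Coprime 2 := Nat.coprime_two_right.2 this
      exact (Nat.Coprime.pow_right 2 h2)
    · rw [Nat.coprime_iff_isRelPrime]
      intro t h1 h2
      have h3 : t ∣ 2 * m + 1 := by rw [← hcm]; exact h2.mul_left c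
      have h4 : t ∣ 1 := (Nat.dvd_add_right (h1.mul_left 2)).1 h3
      exact isUnit_of_dvd_one h4
  obtain ⟨p, hpn, hp, hmod⟩ := Nat.forall_exists_prime_gt_and_modEq m (by omega : 4 * n ≠ 0) hcop
  obtain ⟨j, hj⟩ : ∃ j, p = m + 4 * n * j := by
    obtain ⟨j, hj⟩ := (Nat.modEq_iff_dvd' hpn.le).1 hmod.symm
    exact ⟨j, by omega⟩
  set d := 8 * j + c with hd
  have hpd : 2 * p + 1 = d * n := by
    rw [hj, hd, Nat.add_mul, hcm]; ring
  have hpm : p % 4 = m % 4 := by
    rw [hj, mul_assoc, Nat.add_mul_mod_self_left]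
  have hodd : Odd p := by rw [Nat.odd_iff]; omega
  have hdodd : Odd d := by rw [Nat.odd_iff]; omega
  have hJ2 : J((p : ℤ) | d) = 1 := by
    have h1 : J(-2 * (p : ℤ) | d) = 1 := by
      have e : J(-2 * (p : ℤ) | d) = J(1 | d) := by
        apply jacobiSym.mod_left'
        have : -2 * (p : ℤ) = 1 + d * (-n) := by
          have : 2 * (p : ℤ) + 1 = d * n := by exact_mod_cast hpd
          linarith
        rw [this, Int.add_mul_emod_self_left]
      rw [e, jacobiSym.one_left]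
    rw [jacobiSym.mul_left, jacobiSym.at_neg_two hdodd, χ₈'_nat_eq_if_mod_eight] at h1
    have h8 : d % 8 = 1 ∨ d % 8 = 3 := by omega
    have hnot : ¬ d % 2 = 0 := by omega
    rw [if_neg hnot, if_pos h8, one_mul] at h1
    exact h1
  have hJ : J(-(d : ℤ) | p) = 1 := by
    rw [jacobiSym.neg _ hodd]
    rcases hc with ⟨h1, h2⟩ | ⟨h1, h2⟩ | ⟨h1, h2⟩
    · rw [χ₄_nat_one_mod_four (by omega), one_mul,
        jacobiSym.quadratic_reciprocity_one_mod_four' hdodd (by omega), hJ2]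
    · rw [χ₄_nat_one_mod_four (by omega), one_mul,
        jacobiSym.quadratic_reciprocity_one_mod_four' hdodd (by omega), hJ2]
    · rw [χ₄_nat_three_mod_four (by omega),
        jacobiSym.quadratic_reciprocity_three_mod_four (by omega) (by omega), hJ2]
      norm_num
  obtain ⟨b, hb⟩ := exists_sq_of_jacobi hp hJ
  have hpz : (d : ℤ) * n - 1 = 2 * p := by
    have : 2 * (p : ℤ) + 1 = d * n := by exact_mod_cast hpd
    linarith
  -- choose b odd
  obtain ⟨b', hb', hbo⟩ : ∃ b' : ℤ, (p : ℤ) ∣ b' ^ 2 + d ∧ b' % 2 = 1 := by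
    rcases Int.emod_two_eq_zero_or_one b with h | h
    · refine ⟨b + p, ?_, by omega⟩
      have : (b + (p : ℤ)) ^ 2 + d = (b ^ 2 + d) + p * (2 * b + p) := by ring
      rw [this]
      exact dvd_add hb (dvd_mul_right _ _)
    · exact ⟨b, hb, h⟩
  have h2 : (2 : ℤ) ∣ b' ^ 2 + d := by
    obtain ⟨k, hk⟩ : ∃ k, b' = 2 * k + 1 := ⟨b' / 2, by omega⟩
    obtain ⟨l, hl⟩ := hdodd
    refine ⟨2 * k ^ 2 + 2 * k + 1 + l, ?_⟩
    rw [hk, hl]; push_cast; ring
  have h2p : (2 * p : ℤ) ∣ b' ^ 2 + d := by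
    have hco : IsCoprime (2 : ℤ) (p : ℤ) := by
      have : Nat.Coprime 2 p := Nat.coprime_two_left.2 hodd
      exact_mod_cast Nat.isCoprime_iff_coprime.2 this
    exact hco.mul_dvd h2 hb'
  have hdpos : 0 < d := hdodd.pos
  exact exists_of_residue (d := d) (b := b') (by exact_mod_cast hdpos)
    (by rw [hpz]; exact_mod_cast (by have := hp.pos; omega : 0 < 2 * p)) (by rw [hpz]; exact h2p)

/-- Numbers which are not of the form `4 ^ a * (8 * b + 7)`, integral version. -/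
theorem exists_int_three_squares (n : ℕ) (h : ∀ a b : ℕ, n ≠ 4 ^ a * (8 * b + 7)) :
    ∃ x y z : ℤ, (n : ℤ) = x ^ 2 + y ^ 2 + z ^ 2 := by
  induction n using Nat.strong_induction_on with
  | _ n ih =>
    rcases Nat.eq_zero_or_pos n with h0 | h0
    · exact ⟨0, 0, 0, by simp [h0]⟩
    by_cases h4 : n % 4 = 0
    · obtain ⟨m, hm⟩ : ∃ m, n = 4 * m := ⟨n / 4, by omega⟩
      obtain ⟨x, y, z, hx⟩ := ih m (by omega) (fun a b hab => h (a + 1) b (by
        rw [hm, hab, pow_succ]; ring))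
      exact ⟨2 * x, 2 * y, 2 * z, by rw [hm]; push_cast; rw [hx]; ring⟩
    by_cases h2 : n % 4 = 2
    · exact exists_of_two h2
    · have h7 : n % 8 ≠ 7 := by
        intro h7
        exact h 0 (n / 8) (by omega)
      exact exists_of_odd (by omega)

lemma sq_mod_four (x : ℕ) : x ^ 2 % 4 = 0 ∧ x % 2 = 0 ∨ x ^ 2 % 4 = 1 ∧ x % 2 = 1 := by
  rcases Nat.even_or_odd' x with ⟨k, hk | hk⟩
  · left
    rw [hk]
    refine ⟨?_, by omega⟩
    have : (2 * k) ^ 2 = 4 * (k ^ 2) := by ring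
    omega
  · right
    rw [hk]
    refine ⟨?_, by omega⟩
    have : (2 * k + 1) ^ 2 = 4 * (k ^ 2 + k) + 1 := by ring
    omega

lemma sq_mod_eight (x : ℕ) : x ^ 2 % 8 = 0 ∨ x ^ 2 % 8 = 4 ∨ x ^ 2 % 8 = 1 ∧ x % 2 = 1 := by
  have h : x % 8 < 8 := Nat.mod_lt _ (by norm_num)
  have e : x ^ 2 % 8 = (x % 8) ^ 2 % 8 := by rw [Nat.pow_mod]
  rw [e]
  have h2 : x % 2 = (x % 8) % 2 := by omega
  rw [h2]
  interval_cases (x % 8) <;> simp

/-- A number of the form `4 ^ a * (8 * b + 7)` is not a sum of three squares. -/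
theorem ne_sum_three_squares (a b x y z : ℕ) : x ^ 2 + y ^ 2 + z ^ 2 ≠ 4 ^ a * (8 * b + 7) := by
  induction a generalizing x y z with
  | zero =>
    intro h
    have h1 := sq_mod_eight x
    have h2 := sq_mod_eight y
    have h3 := sq_mod_eight z
    omega
  | succ a ih =>
    intro h
    have e : 4 ^ (a + 1) * (8 * b + 7) = 4 * (4 ^ a * (8 * b + 7)) := by rw [pow_succ]; ring
    rw [e] at h
    have h1 := sq_mod_four x
    have h2 := sq_mod_four y
    have h3 := sq_mod_four z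
    obtain ⟨x', hx⟩ : ∃ x', x = 2 * x' := ⟨x / 2, by omega⟩
    obtain ⟨y', hy⟩ : ∃ y', y = 2 * y' := ⟨y / 2, by omega⟩
    obtain ⟨z', hz⟩ : ∃ z', z = 2 * z' := ⟨z / 2, by omega⟩
    apply ih x' y' z'
    have : 4 * (x' ^ 2 + y' ^ 2 + z' ^ 2) = 4 * (4 ^ a * (8 * b + 7)) := by
      rw [← h, hx, hy, hz]; ring
    omega

/-- **The three squares theorem** (Legendre, Gauss): a natural number is a sum of three squares if
and only if it is not of the form `4 ^ a * (8 * b + 7)`. -/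
theorem sum_three_squares_iff (n : ℕ) :
    (∃ x y z : ℕ, n = x ^ 2 + y ^ 2 + z ^ 2) ↔ ∀ a b : ℕ, n ≠ 4 ^ a * (8 * b + 7) := by
  constructor
  · rintro ⟨x, y, z, h⟩ a b
    rw [h]
    exact ne_sum_three_squares a b x y z
  · intro h
    obtain ⟨x, y, z, e⟩ := exists_int_three_squares n h
    refine ⟨x.natAbs, y.natAbs, z.natAbs, ?_⟩
    zify
    simpa using e

/-- Every number which is `3` modulo `8` is a sum of three odd squares. -/
theorem exists_three_odd_squares {n : ℕ} (h : n % 8 = 3) :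
    ∃ x y z : ℕ, n = (2 * x + 1) ^ 2 + (2 * y + 1) ^ 2 + (2 * z + 1) ^ 2 := by
  obtain ⟨x, y, z, e⟩ := (sum_three_squares_iff n).2 (by
    intro a b hab
    rcases a with _ | a
    · omega
    · rw [pow_succ] at hab
      have : n = 4 * (4 ^ a * (8 * b + 7)) := by rw [hab]; ring
      omega)
  have h1 := sq_mod_eight x
  have h2 := sq_mod_eight y
  have h3 := sq_mod_eight z
  have o1 : x % 2 = 1 := by omega
  have o2 : y % 2 = 1 := by omega
  have o3 : z % 2 = 1 := by omega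
  refine ⟨x / 2, y / 2, z / 2, ?_⟩
  rw [show 2 * (x / 2) + 1 = x by omega, show 2 * (y / 2) + 1 = y by omega,
    show 2 * (z / 2) + 1 = z by omega]
  exact e

/-- **Gauss' Eureka theorem** (10 July 1796): every natural number is a sum of three triangular
numbers. -/
theorem exists_three_triangular (n : ℕ) :
    ∃ x y z : ℕ, n = x * (x + 1) / 2 + y * (y + 1) / 2 + z * (z + 1) / 2 := by
  obtain ⟨x, y, z, e⟩ := exists_three_odd_squares (n := 8 * n + 3) (by omega)
  refine ⟨x, y, z, ?_⟩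
  obtain ⟨p, hp⟩ := Nat.even_mul_succ_self x
  obtain ⟨q, hq⟩ := Nat.even_mul_succ_self y
  obtain ⟨r, hr⟩ := Nat.even_mul_succ_self z
  have e2 : 8 * n + 3 = 4 * (x * (x + 1)) + 4 * (y * (y + 1)) + 4 * (z * (z + 1)) + 3 := by
    rw [e]; ring
  rw [hp, hq, hr] at e2 ⊢
  omega

/-- Every odd natural number is of the form `x² + y² + 2 z²`. -/
theorem exists_odd_eq {n : ℕ} (hn : n % 2 = 1) :
    ∃ x y z : ℕ, n = x ^ 2 + y ^ 2 + 2 * z ^ 2 := by
  obtain ⟨x, y, z, e⟩ := (sum_three_squares_iff (2 * n)).2 (by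
    intro a b hab
    rcases a with _ | a
    · omega
    · rw [pow_succ] at hab
      have : 2 * n = 4 * (4 ^ a * (8 * b + 7)) := by rw [hab]; ring
      omega)
  have key : ∀ x y z : ℕ, 2 * n = x ^ 2 + y ^ 2 + z ^ 2 → x % 2 = 1 → y % 2 = 1 → z % 2 = 0 →
      ∃ x y z : ℕ, n = x ^ 2 + y ^ 2 + 2 * z ^ 2 := by
    intro x y z e hx hy hz
    obtain ⟨u, hu⟩ : ∃ u : ℤ, (x : ℤ) + y = 2 * u := ⟨((x : ℤ) + y) / 2, by omega⟩
    obtain ⟨w, hw⟩ : ∃ w : ℤ, (x : ℤ) - y = 2 * w := ⟨((x : ℤ) - y) / 2, by omega⟩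
    obtain ⟨t, ht⟩ : ∃ t : ℕ, z = 2 * t := ⟨z / 2, by omega⟩
    refine ⟨u.natAbs, w.natAbs, t, ?_⟩
    have hx' : (x : ℤ) = u + w := by linarith
    have hy' : (y : ℤ) = u - w := by linarith
    have e' : (2 * n : ℤ) = (x : ℤ) ^ 2 + (y : ℤ) ^ 2 + (z : ℤ) ^ 2 := by exact_mod_cast e
    rw [hx', hy', ht] at e'
    push_cast at e'
    zify
    simp only [sq_abs]
    linarith
  have h1 := sq_mod_four x
  have h2 := sq_mod_four y
  have h3 := sq_mod_four z
  have hc : (x % 2 = 1 ∧ y % 2 = 1 ∧ z % 2 = 0) ∨ (x % 2 = 1 ∧ z % 2 = 1 ∧ y % 2 = 0) ∨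
      (y % 2 = 1 ∧ z % 2 = 1 ∧ x % 2 = 0) := by omega
  rcases hc with ⟨a, b, c⟩ | ⟨a, b, c⟩ | ⟨a, b, c⟩
  · exact key x y z e a b c
  · exact key x z y (by rw [e]; ring) a b c
  · exact key y z x (by rw [e]; ring) a b c

/-- Every natural number is of the form `x² + y² + z²` or of the form `x² + y² + 2 z²`. -/
theorem exists_eq_or (n : ℕ) : (∃ x y z : ℕ, n = x ^ 2 + y ^ 2 + z ^ 2) ∨
    ∃ x y z : ℕ, n = x ^ 2 + y ^ 2 + 2 * z ^ 2 := by
  by_cases h : ∀ a b : ℕ, n ≠ 4 ^ a * (8 * b + 7)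
  · exact Or.inl ((sum_three_squares_iff n).2 h)
  · push Not at h
    obtain ⟨a, b, e⟩ := h
    obtain ⟨x, y, z, e2⟩ := exists_odd_eq (n := 8 * b + 7) (by omega)
    refine Or.inr ⟨2 ^ a * x, 2 ^ a * y, 2 ^ a * z, ?_⟩
    rw [e, e2, show (4 : ℕ) = 2 ^ 2 by norm_num, ← pow_mul]
    ring

end Fermat.Agent.Cor.Poly
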