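/-
Cauchy's lemma and sums of four numbers k (k - 1) / 2 (helper85).
-/
import Fermat.Agent.Corollaries.Poly.ThreeSq

/-!
# Cauchy's lemma

`cauchy_lemma` (Cauchy 1813): if `a`, `b` are odd, `b² < 4 a` and `3 a < b² + 2 b + 4`, then there are
natural numbers with `a = s² + t² + u² + v²` and `b = s + t + u + v`.

`Rep q b`: there are four natural numbers with sum `b` such that the sum of the `k (k - 1) / 2` is
`q`. From Cauchy's lemma (`101 ≤ n / m`) and an explicit chain of 162 quadruples (`n / m ≤ 100`):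
for `m ≥ 3` every natural number is `m q + b + r` with `Rep q b` and `r ≤ m - 2` (`exists_rep`).
-/

namespace Fermat.Agent.Cor.Poly

/-- **Cauchy's lemma**. -/
theorem cauchy_lemma {a b : ℕ} (ha : a % 2 = 1) (hb : b % 2 = 1) (h1 : b ^ 2 < 4 * a)
    (h2 : 3 * a < b ^ 2 + 2 * b + 4) :
    ∃ s t u v : ℕ, a = s ^ 2 + t ^ 2 + u ^ 2 + v ^ 2 ∧ b = s + t + u + v := by
  have h8 : (4 * a - b ^ 2) % 8 = 3 := by
    have e := sq_mod_eight b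
    have e' := sq_mod_four b
    omega
  obtain ⟨x, y, z, e⟩ := exists_three_odd_squares h8
  have e1 : 4 * a = b ^ 2 + (2 * x + 1) ^ 2 + (2 * y + 1) ^ 2 + (2 * z + 1) ^ 2 := by omega
  -- the sign
  obtain ⟨Z, hZ, hZ1, hZ2, hmod⟩ : ∃ Z : ℤ, Z ^ 2 = (2 * (z : ℤ) + 1) ^ 2 ∧
      -(2 * (z : ℤ) + 1) ≤ Z ∧ Z ≤ 2 * (z : ℤ) + 1 ∧
      ((b : ℤ) + (2 * x + 1) + (2 * y + 1) + Z) % 4 = 0 := by
    have hdis : ((b : ℤ) + (2 * x + 1) + (2 * y + 1) + (2 * z + 1)) % 4 = 0 ∨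
        ((b : ℤ) + (2 * x + 1) + (2 * y + 1) + -(2 * z + 1)) % 4 = 0 := by omega
    rcases hdis with h | h
    · exact ⟨2 * z + 1, rfl, by omega, le_rfl, h⟩
    · exact ⟨-(2 * z + 1), by ring, le_rfl, by omega, h⟩
  set X : ℤ := 2 * x + 1 with hX
  set Y : ℤ := 2 * y + 1 with hY
  set W : ℤ := 2 * z + 1 with hW
  have e2 : 4 * (a : ℤ) = (b : ℤ) ^ 2 + X ^ 2 + Y ^ 2 + W ^ 2 := by
    rw [hX, hY, hW]; exact_mod_cast e1
  have h2' : 3 * (a : ℤ) < (b : ℤ) ^ 2 + 2 * b + 4 := by exact_mod_cast h2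
  have hlt : X + Y + W < b + 4 := by
    have hs : (X + Y + W) ^ 2 < ((b : ℤ) + 4) ^ 2 := by
      nlinarith [sq_nonneg (X - Y), sq_nonneg (Y - W), sq_nonneg (X - W)]
    nlinarith [Int.natCast_nonneg b]
  have hX0 : 0 < X := by omega
  have hY0 : 0 < Y := by omega
  have hb' : (b : ℤ) % 2 = 1 := by omega
  obtain ⟨s, hs⟩ : ∃ s : ℤ, (b : ℤ) + X + Y + Z = 4 * s := ⟨((b : ℤ) + X + Y + Z) / 4, by omega⟩
  obtain ⟨c, hc⟩ : ∃ c : ℤ, (b : ℤ) = 2 * c + 1 := ⟨(b : ℤ) / 2, by omega⟩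
  have ht : ∃ t : ℤ, (b : ℤ) + X - Y - Z = 4 * t := ⟨c + x + 1 - s, by rw [← sub_eq_zero]; linarith⟩
  have hu : ∃ u : ℤ, (b : ℤ) - X + Y - Z = 4 * u := ⟨c + y + 1 - s, by rw [← sub_eq_zero]; linarith⟩
  have hv : ∃ v : ℤ, (b : ℤ) - X - Y + Z = 4 * v := ⟨s - x - y - 1, by rw [← sub_eq_zero]; linarith⟩
  obtain ⟨t, ht⟩ := ht
  obtain ⟨u, hu⟩ := hu
  obtain ⟨v, hv⟩ := hv
  lift s to ℕ using (by omega)
  lift t to ℕ using (by omega)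
  lift u to ℕ using (by omega)
  lift v to ℕ using (by omega)
  refine ⟨s, t, u, v, ?_, ?_⟩
  · have k1 : 16 * ((s : ℤ) ^ 2 + t ^ 2 + u ^ 2 + v ^ 2) = 16 * a := by
      have : 16 * ((s : ℤ) ^ 2 + t ^ 2 + u ^ 2 + v ^ 2) =
          (4 * s) ^ 2 + (4 * t) ^ 2 + (4 * u) ^ 2 + (4 * v) ^ 2 := by ring
      rw [this, ← hs, ← ht, ← hu, ← hv]
      linear_combination 4 * hZ - 4 * e2
    have k2 : (s : ℤ) ^ 2 + t ^ 2 + u ^ 2 + v ^ 2 = a := by linarith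
    exact_mod_cast k2.symm
  · omega

lemma two_mul_choose_two (k : ℕ) : 2 * k.choose 2 + k = k ^ 2 := by
  induction k with
  | zero => rfl
  | succ k ih =>
    have : (k + 1).choose 2 = k + k.choose 2 := by
      rw [Nat.choose_succ_succ' k 1, Nat.choose_one_right]
    rw [this]
    linear_combination ih

/-- `b` is the sum of four natural numbers `k` for which the sum of the `k (k - 1) / 2` is `q`. -/
def Rep (q b : ℕ) : Prop :=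
  ∃ s t u v : ℕ, s.choose 2 + t.choose 2 + u.choose 2 + v.choose 2 = q ∧ s + t + u + v = b

lemma rep_of_lt {q b : ℕ} (hb : b % 2 = 1) (h1 : b ^ 2 < 8 * q + 4 * b)
    (h2 : 6 * q + b < b ^ 2 + 4) : Rep q b := by
  obtain ⟨s, t, u, v, e1, e2⟩ := cauchy_lemma (a := 2 * q + b) (b := b) (by omega) hb
    (by omega) (by omega)
  refine ⟨s, t, u, v, ?_, e2.symm⟩
  have k1 := two_mul_choose_two s
  have k2 := two_mul_choose_two t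
  have k3 := two_mul_choose_two u
  have k4 := two_mul_choose_two v
  omega

/-- The case of large `n / m`. -/
lemma exists_rep_large {m n : ℕ} (hm : 3 ≤ m) (hn : 101 ≤ n / m) :
    ∃ q b r : ℕ, Rep q b ∧ r + 2 ≤ m ∧ n = m * q + b + r := by
  classical
  obtain ⟨Q, hQ⟩ : ∃ Q, Q = n / m := ⟨_, rfl⟩
  rw [← hQ] at hn
  have hex : ∃ b : ℕ, b % 2 = 1 ∧ 6 * Q + b < b ^ 2 + 4 :=
    ⟨6 * Q + 3, by omega, by nlinarith⟩
  obtain ⟨hb1, hb2⟩ := Nat.find_spec hex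
  have hmin := fun k (hk : k < Nat.find hex) => Nat.find_min hex hk
  set b := Nat.find hex with hb
  have hb27 : 27 ≤ b := by
    by_contra hc
    have h1 : b < 27 := by omega
    interval_cases b <;> omega
  have hb3 : (b - 2) ^ 2 + 4 ≤ 6 * Q + (b - 2) := by
    have h1 := hmin (b - 2) (by omega)
    by_contra hc
    exact h1 ⟨by omega, by omega⟩
  have hb4 : b ^ 2 + 10 ≤ 6 * Q + 5 * b := by
    obtain ⟨c, hc⟩ : ∃ c, b = c + 2 := ⟨b - 2, by omega⟩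
    rw [hc] at hb3 ⊢
    simp only [Nat.add_sub_cancel] at hb3
    nlinarith
  have hQn : m * Q ≤ n := by rw [hQ]; exact Nat.mul_div_le n m
  have hQ3 : 3 * Q ≤ n := le_trans (Nat.mul_le_mul_right Q hm) hQn
  have hbn : b ≤ n := by nlinarith
  obtain ⟨q, hq⟩ : ∃ q, q = (n - b) / m := ⟨_, rfl⟩
  have hqQ : q ≤ Q := by rw [hq, hQ]; exact Nat.div_le_div_right (Nat.sub_le n b)
  obtain ⟨r, hr⟩ : ∃ r, r = (n - b) % m := ⟨_, rfl⟩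
  have hrm : r < m := by rw [hr]; exact Nat.mod_lt _ (by omega)
  have hdiv : n - b = m * q + r := by
    rw [hq, hr]; exact (Nat.div_add_mod _ _).symm
  have hlow : 3 * Q ≤ 3 * q + b + 2 := by
    by_contra hc
    have hc' : b + 3 ≤ 3 * (Q - q) := by omega
    obtain ⟨e, he⟩ : ∃ e, Q = q + 1 + e := ⟨Q - q - 1, by omega⟩
    have h3 : b ≤ 3 * e := by omega
    have h4 : m * (q + 1 + e) ≤ m * q + r + b := by
      rw [← he]; omega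
    have h5 : 3 * e ≤ m * e := Nat.mul_le_mul_right e hm
    have h6 : m * (q + 1 + e) = m * q + m + m * e := by ring
    omega
  have hkey : b ^ 2 < 8 * q + 4 := by
    have h28 : 28 * b < b ^ 2 + 36 := by
      obtain ⟨c, hc⟩ : ∃ c, b = c + 27 := ⟨b - 27, by omega⟩
      rw [hc]
      nlinarith
    nlinarith
  by_cases hcase : r + 2 ≤ m
  · exact ⟨q, b, r, rep_of_lt hb1 (by omega) (by omega), hcase, by omega⟩
  · refine ⟨q, b + 2, m - 3, rep_of_lt (by omega) ?_ ?_, by omega, by omega⟩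
    · nlinarith
    · nlinarith

/-- A chain of quadruples. -/
def tab : List (ℕ × ℕ × ℕ × ℕ) :=
  [(0, 0, 0, 0), (1, 1, 0, 0), (1, 1, 1, 1), (2, 1, 0, 0), (2, 1, 1, 1), (2, 2, 0, 0),
  (2, 2, 1, 1), (3, 1, 1, 0), (2, 2, 2, 1), (3, 2, 1, 0), (2, 2, 2, 2), (3, 2, 2, 0),
  (3, 3, 0, 0), (3, 3, 1, 1), (4, 2, 1, 0), (3, 3, 2, 1), (4, 2, 2, 0), (3, 3, 2, 2),
  (3, 3, 3, 0), (5, 1, 1, 1), (4, 3, 2, 1), (5, 2, 1, 1), (4, 3, 2, 2), (4, 3, 3, 0),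
  (3, 3, 3, 3), (4, 4, 2, 1), (5, 3, 2, 0), (4, 4, 2, 2), (4, 4, 3, 0), (4, 3, 3, 3),
  (5, 3, 3, 1), (5, 4, 2, 0), (5, 3, 3, 2), (4, 4, 4, 0), (4, 4, 3, 3), (5, 4, 3, 1),
  (5, 5, 1, 1), (5, 4, 3, 2), (5, 5, 2, 1), (4, 4, 4, 3), (5, 4, 4, 1), (5, 5, 3, 0),
  (5, 4, 4, 2), (6, 4, 3, 1), (4, 4, 4, 4), (6, 4, 3, 2), (5, 5, 4, 0), (5, 5, 3, 3),
  (6, 4, 4, 1), (6, 5, 3, 0), (6, 4, 4, 2), (7, 4, 2, 2), (5, 5, 4, 3), (5, 5, 5, 1),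
  (6, 5, 4, 0), (5, 5, 5, 2), (6, 6, 2, 2), (5, 5, 4, 4), (7, 4, 3, 3), (7, 5, 3, 1),
  (6, 5, 4, 3), (6, 5, 5, 1), (6, 6, 4, 0), (6, 5, 5, 2), (7, 5, 4, 1), (6, 5, 4, 4),
  (7, 5, 4, 2), (7, 6, 3, 1), (6, 6, 4, 3), (6, 6, 5, 1), (5, 5, 5, 5), (6, 6, 5, 2),
  (7, 6, 4, 1), (6, 6, 4, 4), (7, 6, 4, 2), (7, 7, 2, 2), (7, 5, 5, 3), (6, 6, 6, 1),
  (6, 5, 5, 5), (6, 6, 6, 2), (8, 6, 3, 2), (7, 5, 5, 4), (7, 7, 3, 3), (8, 6, 4, 1),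
  (7, 6, 5, 3), (8, 6, 4, 2), (6, 6, 5, 5), (7, 7, 4, 3), (7, 7, 5, 1), (8, 6, 5, 0),
  (9, 6, 3, 0), (10, 5, 1, 1), (8, 7, 4, 0), (8, 7, 3, 3), (6, 6, 6, 5), (8, 6, 5, 3),
  (7, 7, 6, 1), (7, 6, 6, 4), (7, 7, 6, 2), (8, 7, 5, 1), (8, 6, 5, 4), (8, 7, 5, 2),
  (6, 6, 6, 6), (8, 6, 6, 3), (8, 8, 3, 3), (7, 7, 5, 5), (9, 6, 4, 4), (8, 7, 6, 1),
  (8, 6, 6, 4), (8, 7, 6, 2), (8, 8, 5, 1), (7, 7, 7, 3), (8, 8, 5, 2), (7, 7, 6, 5),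
  (8, 8, 4, 4), (10, 6, 4, 3), (7, 7, 7, 4), (9, 7, 5, 3), (8, 8, 6, 1), (9, 6, 5, 5),
  (8, 8, 6, 2), (10, 7, 4, 2), (9, 8, 5, 0), (9, 9, 3, 0), (10, 6, 6, 1), (9, 7, 6, 3),
  (10, 6, 6, 2), (8, 7, 7, 4), (9, 8, 5, 3), (9, 7, 7, 1), (9, 7, 6, 4), (9, 7, 7, 2),
  (8, 7, 6, 6), (8, 8, 7, 3), (9, 9, 4, 3), (8, 8, 6, 5), (9, 8, 6, 3), (9, 9, 5, 2),
  (8, 8, 7, 4), (9, 9, 4, 4), (7, 7, 7, 7), (9, 8, 6, 4), (9, 8, 7, 2), (8, 8, 6, 6),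
  (8, 8, 8, 3), (8, 8, 7, 5), (9, 8, 7, 3), (10, 8, 6, 2), (11, 8, 4, 2), (10, 9, 5, 0),
  (11, 9, 2, 1), (9, 8, 8, 0), (11, 7, 5, 4), (9, 9, 7, 1), (10, 8, 7, 0), (13, 5, 4, 2),
  (13, 6, 3, 1), (10, 9, 6, 0), (11, 9, 4, 0), (13, 5, 5, 0), (13, 7, 1, 1), (11, 10, 0, 0)]

/-- `q` of a quadruple. -/
def tq (t : ℕ × ℕ × ℕ × ℕ) : ℕ :=
  t.1.choose 2 + t.2.1.choose 2 + t.2.2.1.choose 2 + t.2.2.2.choose 2

/-- `b` of a quadruple. -/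
def tb (t : ℕ × ℕ × ℕ × ℕ) : ℕ := t.1 + t.2.1 + t.2.2.1 + t.2.2.2

/-- The condition on neighbours in the chain. -/
def step (t t' : ℕ × ℕ × ℕ × ℕ) : Bool :=
  (tq t' == tq t && tb t' ≤ tb t + 2) || (tq t' == tq t + 1 && tb t' + 1 ≤ tb t)

/-- `l` is a chain which begins with `t` and ends at `q = 100`. -/
def good : (ℕ × ℕ × ℕ × ℕ) → List (ℕ × ℕ × ℕ × ℕ) → Bool
  | t, [] => tq t == 100 && 1 ≤ tb t
  | t, t' :: l => step t t' && good t' l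

lemma good_tab : good (0, 0, 0, 0) tab = true := by decide +kernel

lemma rep_tuple (t : ℕ × ℕ × ℕ × ℕ) : Rep (tq t) (tb t) := ⟨_, _, _, _, rfl, rfl⟩

lemma exists_of_good {m n : ℕ} (hm : 3 ≤ m) (hn : n < 101 * m) :
    ∀ (l : List (ℕ × ℕ × ℕ × ℕ)) (t : ℕ × ℕ × ℕ × ℕ), good t l = true → m * tq t + tb t ≤ n →
      ∃ q b r : ℕ, Rep q b ∧ r + 2 ≤ m ∧ n = m * q + b + r := by
  intro l
  induction l with
  | nil =>
    intro t ht hle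
    simp only [good, Bool.and_eq_true, beq_iff_eq, decide_eq_true_eq] at ht
    refine ⟨tq t, tb t, n - (m * tq t + tb t), rep_tuple t, ?_, by omega⟩
    rw [ht.1] at hle ⊢
    omega
  | cons t' l ih =>
    intro t ht hle
    simp only [good, Bool.and_eq_true] at ht
    by_cases hc : n + 2 ≤ m * tq t + tb t + m
    · exact ⟨tq t, tb t, n - (m * tq t + tb t), rep_tuple t, by omega, by omega⟩
    · apply ih t' ht.2
      have hs := ht.1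
      simp only [step, Bool.or_eq_true, Bool.and_eq_true, beq_iff_eq, decide_eq_true_eq] at hs
      rcases hs with ⟨h1, h2⟩ | ⟨h1, h2⟩
      · rw [h1]; omega
      · rw [h1, Nat.mul_add, Nat.mul_one]; omega

/-- For `m ≥ 3` every natural number is `m q + b + r` with `r ≤ m - 2` and four natural numbers of
sum `b` for which the sum of the `k (k - 1) / 2` is `q`. -/
theorem exists_rep {m : ℕ} (hm : 3 ≤ m) (n : ℕ) :
    ∃ q b r : ℕ, Rep q b ∧ r + 2 ≤ m ∧ n = m * q + b + r := by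
  by_cases h : 101 ≤ n / m
  · exact exists_rep_large hm h
  · have h1 : n / m < 101 := by omega
    have h2 : n < 101 * m := by
      rw [Nat.div_lt_iff_lt_mul (by omega)] at h1
      exact h1
    exact exists_of_good hm h2 tab _ good_tab (by simp [tq, tb])

end Fermat.Agent.Cor.Poly
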