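/-
Fermat's polygonal number theorem (helper85).
-/
import Fermat.Agent.Corollaries.Poly.Cauchy

/-!
# Fermat's polygonal number theorem

`polygonal s k` is the `k`-th polygonal number with `s` corners: `0, 1, s, 3 s - 3, ...`
(triangular numbers for `s = 3`, squares for `s = 4`).

`fermat_polygonal` (stated by Fermat in the margin of his copy of Diophantus; proved by Lagrange in
1770 for squares, by Gauss in 1796 for triangular numbers and by Cauchy in 1813 for all `s`): for
`s ≥ 3` every natural number is a sum of `s` polygonal numbers with `s` corners.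

`cauchy_polygonal` (Cauchy): if `s ≥ 5`, all but four of them may be taken to be `0` or `1`.

`not_sum_polygonal`: the number `s` is best possible, `2 s - 1` is not a sum of `s - 1` polygonal
numbers with `s` corners.
-/

namespace Fermat.Agent.Cor.Poly

/-- The `k`-th polygonal number with `s` corners (`s ≥ 2`). -/
def polygonal (s k : ℕ) : ℕ := (s - 2) * k.choose 2 + k

@[simp] lemma polygonal_zero (s : ℕ) : polygonal s 0 = 0 := by simp [polygonal]

@[simp] lemma polygonal_one (s : ℕ) : polygonal s 1 = 1 := by simp [polygonal]

lemma polygonal_two {s : ℕ} (hs : 2 ≤ s) : polygonal s 2 = s := by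
  simp [polygonal]; omega

/-- The gnomon: `polygonal s (k + 1)` is obtained from `polygonal s k` by adding
`(s - 2) k + 1` points. -/
lemma polygonal_succ (s k : ℕ) : polygonal s (k + 1) = polygonal s k + ((s - 2) * k + 1) := by
  have : (k + 1).choose 2 = k + k.choose 2 := by
    rw [Nat.choose_succ_succ' k 1, Nat.choose_one_right]
  rw [polygonal, polygonal, this]
  ring

/-- Polygonal numbers are sums of arithmetic progressions. -/
lemma polygonal_eq_sum (s k : ℕ) :
    polygonal s k = ∑ i ∈ Finset.range k, ((s - 2) * i + 1) := by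
  induction k with
  | zero => simp
  | succ k ih => rw [polygonal_succ, Finset.sum_range_succ, ih]

/-- The usual closed formula. -/
lemma two_mul_polygonal {s : ℕ} (hs : 2 ≤ s) (k : ℕ) :
    2 * (polygonal s k : ℤ) = (s - 2) * k ^ 2 - (s - 4) * k := by
  obtain ⟨m, rfl⟩ : ∃ m, s = m + 2 := ⟨s - 2, by omega⟩
  have h := two_mul_choose_two k
  have h' : 2 * ((k.choose 2 : ℕ) : ℤ) + k = (k : ℤ) ^ 2 := by exact_mod_cast h
  rw [polygonal, Nat.add_sub_cancel]
  push_cast
  linear_combination (m : ℤ) * h'

/-- The triangular numbers. -/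
lemma polygonal_three (k : ℕ) : polygonal 3 k = k * (k + 1) / 2 := by
  have h := two_mul_choose_two k
  have : k * (k + 1) = 2 * polygonal 3 k := by
    rw [polygonal]
    simp only [Nat.reduceSub, one_mul]
    linarith [h]
  rw [this]
  omega

/-- The squares. -/
lemma polygonal_four (k : ℕ) : polygonal 4 k = k ^ 2 := by
  have h := two_mul_choose_two k
  rw [polygonal]
  exact h

/-- The pentagonal numbers. -/
lemma polygonal_five (k : ℕ) : polygonal 5 k = k * (3 * k - 1) / 2 := by
  have h := two_mul_choose_two k
  have : k * (3 * k - 1) = 2 * polygonal 5 k := by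
    rw [polygonal]
    rcases k with _ | k
    · simp
    · have e : 3 * (k + 1) - 1 = 3 * k + 2 := by omega
      rw [e]
      simp only [Nat.reduceSub]
      linarith [h]
  rw [this]
  omega

/-- The hexagonal numbers. -/
lemma polygonal_six (k : ℕ) : polygonal 6 k = k * (2 * k - 1) := by
  have h := two_mul_choose_two k
  rw [polygonal]
  rcases k with _ | k
  · simp
  · have e : 2 * (k + 1) - 1 = 2 * k + 1 := by omega
    rw [e]
    simp only [Nat.reduceSub]
    linarith [h]

/-- **Cauchy's form of the polygonal number theorem**: for `s ≥ 5` every natural number is the sum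
of four polygonal numbers with `s` corners and of at most `s - 4` ones. -/
theorem cauchy_polygonal {s : ℕ} (hs : 5 ≤ s) (n : ℕ) :
    ∃ a b c d r : ℕ, r + 4 ≤ s ∧
      n = polygonal s a + polygonal s b + polygonal s c + polygonal s d + r := by
  obtain ⟨q, t, r, ⟨a, b, c, d, h1, h2⟩, h3, h4⟩ := exists_rep (m := s - 2) (by omega) n
  refine ⟨a, b, c, d, r, by omega, ?_⟩
  rw [h4, ← h1, ← h2]
  simp only [polygonal]
  ring

lemma sum_ite_lt (s n r : ℕ) (hr : r ≤ n) :
    ∑ i : Fin n, polygonal s (if (i : ℕ) < r then 1 else 0) = r := by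
  have h1 : ∀ i : Fin n, polygonal s (if (i : ℕ) < r then 1 else 0) =
      (fun j : ℕ => if j < r then 1 else 0) i := by
    intro i
    by_cases h : (i : ℕ) < r <;> simp [h]
  rw [Finset.sum_congr rfl (fun i _ => h1 i),
    Fin.sum_univ_eq_sum_range (fun j : ℕ => if j < r then 1 else 0) n]
  rw [Finset.sum_ite, Finset.sum_const_zero, add_zero, Finset.sum_const, smul_eq_mul, mul_one]
  have : (Finset.range n).filter (fun j => j < r) = Finset.range r := by
    ext j
    simp only [Finset.mem_filter, Finset.mem_range]
    omega
  rw [this, Finset.card_range]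

/-- **Fermat's polygonal number theorem** (Lagrange, Gauss, Cauchy): for `s ≥ 3` every natural
number is a sum of `s` polygonal numbers with `s` corners. -/
theorem fermat_polygonal {s : ℕ} (hs : 3 ≤ s) (n : ℕ) :
    ∃ f : Fin s → ℕ, n = ∑ i, polygonal s (f i) := by
  rcases Nat.lt_or_ge s 5 with h | h
  · obtain rfl | rfl : s = 3 ∨ s = 4 := by omega
    · obtain ⟨x, y, z, e⟩ := exists_three_triangular n
      refine ⟨![x, y, z], ?_⟩
      simp [Fin.sum_univ_three, polygonal_three, e]
    · obtain ⟨a, b, c, d, e⟩ := Nat.sum_four_squares n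
      refine ⟨![a, b, c, d], ?_⟩
      simp [Fin.sum_univ_four, polygonal_four, e]
  · obtain ⟨a, b, c, d, r, hr, e⟩ := cauchy_polygonal h n
    obtain ⟨m, rfl⟩ : ∃ m, s = 4 + m := ⟨s - 4, by omega⟩
    refine ⟨Fin.append ![a, b, c, d] (fun i => if (i : ℕ) < r then 1 else 0), ?_⟩
    rw [Fin.sum_univ_add]
    simp only [Fin.append_left, Fin.append_right]
    rw [sum_ite_lt (4 + m) m r (by omega), e]
    simp [Fin.sum_univ_four]

/-- The number of summands in Fermat's theorem is best possible: `2 s - 1` is not a sum of `s - 1`
polygonal numbers with `s` corners. -/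
theorem not_sum_polygonal {s : ℕ} (hs : 3 ≤ s) :
    ¬ ∃ f : Fin (s - 1) → ℕ, 2 * s - 1 = ∑ i, polygonal s (f i) := by
  rintro ⟨f, hf⟩
  have hmono : ∀ k : ℕ, 3 ≤ k → 3 * s - 3 ≤ polygonal s k := by
    intro k hk
    induction k, hk using Nat.le_induction with
    | base => simp [polygonal, Nat.choose]; omega
    | succ k _ ih => rw [polygonal_succ]; omega
  -- all summands are 0, 1 or s
  have hval : ∀ i, polygonal s (f i) ≤ 1 ∨ polygonal s (f i) = s := by
    intro i
    have hle : polygonal s (f i) ≤ 2 * s - 1 := by
      rw [hf]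
      exact Finset.single_le_sum (f := fun i => polygonal s (f i)) (fun _ _ => Nat.zero_le _)
        (Finset.mem_univ i)
    rcases Nat.lt_or_ge (f i) 3 with h | h
    · have : f i = 0 ∨ f i = 1 ∨ f i = 2 := by omega
      rcases this with h | h | h <;> rw [h]
      · simp
      · simp
      · right; exact polygonal_two (by omega)
    · have := hmono _ h
      omega
  by_cases hex : ∃ i, polygonal s (f i) = s
  · obtain ⟨i, hi⟩ := hex
    have hsum : ∑ j, polygonal s (f j) =
        polygonal s (f i) + ∑ j ∈ Finset.univ.erase i, polygonal s (f j) :=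
      (Finset.add_sum_erase _ _ (Finset.mem_univ i)).symm
    have hrest : ∑ j ∈ Finset.univ.erase i, polygonal s (f j) = s - 1 := by omega
    have hcard : (Finset.univ.erase i).card = s - 2 := by
      rw [Finset.card_erase_of_mem (Finset.mem_univ i), Finset.card_univ, Fintype.card_fin]
      omega
    by_cases hex2 : ∃ j ∈ Finset.univ.erase i, polygonal s (f j) = s
    · obtain ⟨j, hj, hj2⟩ := hex2
      have := Finset.single_le_sum (f := fun j => polygonal s (f j)) (fun _ _ => Nat.zero_le _) hj
      rw [hrest, hj2] at this
      omega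
    · push Not at hex2
      have hle : ∑ j ∈ Finset.univ.erase i, polygonal s (f j) ≤
          ∑ j ∈ Finset.univ.erase i, 1 := by
        apply Finset.sum_le_sum
        intro j hj
        rcases hval j with h | h
        · exact h
        · exact absurd h (hex2 j hj)
      rw [Finset.sum_const, smul_eq_mul, mul_one, hcard, hrest] at hle
      omega
  · push Not at hex
    have hle : ∑ j, polygonal s (f j) ≤ ∑ _j : Fin (s - 1), 1 := by
      apply Finset.sum_le_sum
      intro j _
      rcases hval j with h | h
      · exact h
      · exact absurd h (hex j)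
    rw [Finset.sum_const, smul_eq_mul, mul_one, Finset.card_univ, Fintype.card_fin, ← hf] at hle
    omega

end Fermat.Agent.Cor.Poly
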